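/-
MAZUR (Track M), package (p) (helper5), part 1: **unipotent inertia acts through a cyclic group**.

`X` a finite `G_ℚ`-module killed by `P ^ k`, `𝔭` a place of `ℚ̄` over a prime `p ≠ P`, the inertia
group `I = 𝔭.I` acting unipotently (`(σ - 1)² = 0`), `c : G_ℚ → X` a locally constant cocycle.
`mzlKer c` is the subgroup of `G_ℚ` acting trivially on the pair `(X, c)`.

* `mzl_pow_smul`, `mzl_cocycle_pow` : `σ ^ j x = x + j (σ - 1) x`,
  `c (σ ^ j) = j c(σ) + (j choose 2) (σ - 1) c(σ)`;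
* `mzl_pow_mem_ker` : `σ ^ (P ^ (k+1)) ∈ mzlKer c` for `σ ∈ I`;
* `mzl_exists_generator` : (from `TW.tame_structure`) there is `t ∈ I` with
  `σ ∈ t ^ j · mzlKer c` for every `σ ∈ I`, and `φ t φ⁻¹ ∈ t ^ p · mzlKer c` for every Frobenius `φ`.
-/
import Fermat.Agent.Lib.Mazur.Sel.Defs
import Fermat.Agent.Lib.TW.Flat.Stable
import Fermat.Agent.Lib.TW.Local.TameStructure

set_option autoImplicit false
set_option linter.unusedSectionVars false
set_option linter.style.haveILetI false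

namespace Fermat.Agent.Mazur

open Fermat.Agent.TW Fermat.Agent.S05Lib

local notation "Qb" => AlgebraicClosure ℚ
local notation "GQ" => (AlgebraicClosure ℚ ≃ₐ[ℚ] AlgebraicClosure ℚ)

variable {X : Type*} [AddCommGroup X] [DistribMulAction GQ X]

/-- powers of a unipotent operator -/
theorem mzl_pow_smul {σ : GQ} (hU : ∀ x : X, σ • (σ • x - x) = σ • x - x) (j : ℕ) (x : X) :
    σ ^ j • x = x + j • (σ • x - x) := by
  induction j with
  | zero => simp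
  | succ j ih =>
    have h1 : σ • (j • (σ • x - x)) = j • (σ • x - x) := by
      rw [smul_comm, hU]
    rw [pow_succ', mul_smul, ih, smul_add, h1, succ_nsmul]
    abel

/-- the cocycle on powers of a unipotent element -/
theorem mzl_cocycle_pow {c : GQ → X} (hc : MzsCocycle c) {σ : GQ}
    (hU : ∀ x : X, σ • (σ • x - x) = σ • x - x) (j : ℕ) :
    c (σ ^ j) = j • c σ + (j.choose 2) • (σ • c σ - c σ) := by
  induction j with
  | zero => simp [hc.map_one]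
  | succ j ih =>
    have h2 : (j + 1).choose 2 = j + j.choose 2 := by
      rw [Nat.choose_succ_succ j 1, Nat.choose_one_right]
    rw [pow_succ, hc (σ ^ j) σ, ih, mzl_pow_smul hU j (c σ), h2, add_nsmul _ j (j.choose 2),
      succ_nsmul]
    abel

/-- the subgroup of `G_ℚ` acting trivially on the pair `(X, c)` -/
def mzlKer (c : GQ → X) (hc : MzsCocycle c) : Subgroup GQ where
  carrier := {g | c g = 0 ∧ ∀ x : X, g • x = x}
  one_mem' := ⟨hc.map_one, fun x => one_smul _ x⟩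
  mul_mem' := by
    rintro g h ⟨hg1, hg2⟩ ⟨hh1, hh2⟩
    refine ⟨?_, fun x => ?_⟩
    · rw [hc g h, hg1, hh1, smul_zero, add_zero]
    · rw [mul_smul, hh2, hg2]
  inv_mem' := by
    rintro g ⟨hg1, hg2⟩
    have hinv : ∀ x : X, g⁻¹ • x = x := fun x => by
      conv_lhs => rw [← hg2 x]
      rw [inv_smul_smul]
    refine ⟨?_, hinv⟩
    have h := hc g⁻¹ g
    rw [inv_mul_cancel, hc.map_one, hg1, smul_zero, add_zero] at h
    exact h.symm

theorem mem_mzlKer {c : GQ → X} {hc : MzsCocycle c} {g : GQ} :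
    g ∈ mzlKer c hc ↔ c g = 0 ∧ ∀ x : X, g • x = x := Iff.rfl

/-- `P ^ k` divides `(P ^ (k+1)).choose 2` -/
theorem mzl_dvd_choose_two (P k : ℕ) : P ^ k ∣ (P ^ (k + 1)).choose 2 := by
  rw [Nat.choose_two_right]
  rcases Nat.even_or_odd P with hP | hP
  · -- `P` even: `P ^ (k+1) / 2 = P ^ k * (P / 2)`
    obtain ⟨r, hr⟩ := hP
    have h1 : P ^ (k + 1) * (P ^ (k + 1) - 1) / 2 = P ^ k * (r * (P ^ (k + 1) - 1)) := by
      rw [pow_succ, hr, ← two_mul]
      have : (2 * r) ^ k * (2 * r) * ((2 * r) ^ k * (2 * r) - 1) =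
          2 * ((2 * r) ^ k * (r * ((2 * r) ^ k * (2 * r) - 1))) := by ring
      rw [this, Nat.mul_div_cancel_left _ (by norm_num : 0 < 2)]
    rw [h1]
    exact dvd_mul_right _ _
  · -- `P` odd: `P ^ (k+1) - 1` is even
    have hodd : Odd (P ^ (k + 1)) := hP.pow
    obtain ⟨r, hr⟩ := hodd
    have h1 : P ^ (k + 1) * (P ^ (k + 1) - 1) / 2 = P ^ k * (P * r) := by
      have h2 : P ^ (k + 1) - 1 = 2 * r := by omega
      rw [h2, pow_succ]
      have : P ^ k * P * (2 * r) = 2 * (P ^ k * (P * r)) := by ring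
      rw [this, Nat.mul_div_cancel_left _ (by norm_num : 0 < 2)]
    rw [h1]
    exact dvd_mul_right _ _

/-- a unipotent element has `P`-power order on the pair `(X, c)` -/
theorem mzl_pow_mem_ker {c : GQ → X} (hc : MzsCocycle c) {P k : ℕ}
    (hPk : ∀ x : X, P ^ k • x = 0) {σ : GQ}
    (hU : ∀ x : X, σ • (σ • x - x) = σ • x - x) : σ ^ (P ^ (k + 1)) ∈ mzlKer c hc := by
  have hkill : ∀ (n : ℕ), P ^ k ∣ n → ∀ x : X, n • x = 0 := by
    rintro n ⟨d, rfl⟩ x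
    rw [mul_comm, mul_nsmul, hPk]
  have h1 : P ^ k ∣ P ^ (k + 1) := pow_dvd_pow P (Nat.le_succ k)
  refine ⟨?_, fun x => ?_⟩
  · rw [mzl_cocycle_pow hc hU, hkill _ h1, hkill _ (mzl_dvd_choose_two P k), add_zero]
  · rw [mzl_pow_smul hU, hkill _ h1, add_zero]

/-- an inertia element of `p`-power order on `(X, c)` acts trivially, if `P ≠ p` -/
theorem mzl_mem_ker_of_pow {c : GQ → X} (hc : MzsCocycle c) {P k p a : ℕ} (hcop : Nat.Coprime P p)
    (hPk : ∀ x : X, P ^ k • x = 0) {w : GQ}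
    (hU : ∀ x : X, w • (w • x - x) = w • x - x) (hw : w ^ (p ^ a) ∈ mzlKer c hc) :
    w ∈ mzlKer c hc := by
  have h1 := mzl_pow_mem_ker hc hPk hU
  have hcop' : Nat.Coprime (P ^ (k + 1)) (p ^ a) := Nat.Coprime.pow _ _ hcop
  have hb : ((P ^ (k + 1) : ℕ) : ℤ) * Nat.gcdA (P ^ (k + 1)) (p ^ a) +
      ((p ^ a : ℕ) : ℤ) * Nat.gcdB (P ^ (k + 1)) (p ^ a) = 1 := by
    have := Nat.gcd_eq_gcd_ab (P ^ (k + 1)) (p ^ a)
    rw [hcop'] at this
    exact_mod_cast this.symm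
  have h2 : w = (w ^ (P ^ (k + 1))) ^ (Nat.gcdA (P ^ (k + 1)) (p ^ a)) *
      (w ^ (p ^ a)) ^ (Nat.gcdB (P ^ (k + 1)) (p ^ a)) := by
    rw [← zpow_natCast, ← zpow_natCast, ← zpow_mul, ← zpow_mul, ← zpow_add, hb, zpow_one]
  rw [h2]
  exact Subgroup.mul_mem _ (Subgroup.zpow_mem _ h1 _) (Subgroup.zpow_mem _ hw _)

variable [Finite X]

/-- the subgroup acting trivially on `(X, c)` contains the fixing subgroup of a finite level -/
theorem mzl_exists_level {c : GQ → X} (hc : MzsCocycle c) (hlc : IsLocallyConstant c)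
    (hsm : ∀ x : X, IsLocallyConstant (fun g : GQ => g • x)) :
    ∃ F₀ : IntermediateField ℚ Qb, FiniteDimensional ℚ F₀ ∧
      F₀.fixingSubgroup ≤ mzlKer c hc := by
  have hopen : ((mzlKer c hc : Subgroup GQ) : Set GQ) ∈ nhds (1 : GQ) := by
    have h1 : {g : GQ | c g = c 1} ∈ nhds (1 : GQ) := (hlc.isOpen_fiber (c 1)).mem_nhds rfl
    have h2 : ∀ x : X, {g : GQ | g • x = (1 : GQ) • x} ∈ nhds (1 : GQ) := fun x =>
      ((hsm x).isOpen_fiber ((1 : GQ) • x)).mem_nhds rfl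
    have h3 : (⋂ x : X, {g : GQ | g • x = (1 : GQ) • x}) ∈ nhds (1 : GQ) :=
      (Filter.iInter_mem).mpr h2
    refine Filter.mem_of_superset (Filter.inter_mem h1 h3) ?_
    rintro g ⟨hg1, hg2⟩
    refine ⟨?_, fun x => ?_⟩
    · have : c g = c 1 := hg1
      rw [this, hc.map_one]
    · have := Set.mem_iInter.mp hg2 x
      have h4 : g • x = (1 : GQ) • x := this
      rw [h4, one_smul]
  obtain ⟨E, hE, hEK⟩ := (krullTopology_mem_nhds_one_iff ℚ Qb _).mp hopen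
  exact ⟨E, hE, fun g hg => hEK hg⟩

/-- **the inertia group acts on `(X, c)` through a cyclic group, on which Frobenius acts by
`t ↦ t ^ p`** -/
theorem mzl_exists_generator (𝔭 : FFPlace) {c : GQ → X} (hc : MzsCocycle c)
    (hlc : IsLocallyConstant c) (hsm : ∀ x : X, IsLocallyConstant (fun g : GQ => g • x))
    {P k : ℕ} (hcop : Nat.Coprime P 𝔭.p) (hPk : ∀ x : X, P ^ k • x = 0)
    (hU : ∀ σ ∈ 𝔭.I, ∀ x : X, σ • (σ • x - x) = σ • x - x) :
    ∃ t ∈ 𝔭.I, (∀ σ ∈ 𝔭.I, ∃ j : ℤ, σ * t ^ (-j) ∈ mzlKer c hc) ∧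
      ∀ φ : GQ, 𝔭.P.IsFrobeniusAt φ 𝔭.p →
        φ * t * φ⁻¹ * t ^ (-(𝔭.p : ℤ)) ∈ mzlKer c hc := by
  obtain ⟨F₀, hF₀, hF₀K⟩ := mzl_exists_level hc hlc hsm
  haveI := hF₀
  obtain ⟨t, ht, h1, h2⟩ := tame_structure 𝔭.hp 𝔭.P 𝔭.hP F₀
  have htI : t ∈ 𝔭.I := ht
  refine ⟨t, htI, fun σ hσ => ?_, fun φ hφ => ?_⟩
  · obtain ⟨j, a, hja⟩ := h1 σ hσ
    refine ⟨j, mzl_mem_ker_of_pow hc hcop hPk (hU _ ?_) (hF₀K hja)⟩
    exact 𝔭.I.mul_mem hσ (𝔭.I.zpow_mem htI _)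
  · obtain ⟨a, ha⟩ := h2 φ hφ
    refine mzl_mem_ker_of_pow hc hcop hPk (hU _ ?_) (hF₀K ha)
    have hφD : φ ∈ 𝔭.D := hφ.mem_decompositionSubgroup
    exact 𝔭.I.mul_mem (𝔭.conj_mem_I hφD htI) (𝔭.I.zpow_mem htI _)

end Fermat.Agent.Mazur
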