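/-
MAZUR (Track M), package (p) (helper5), part 2: **the abstract local theory at the level prime**.

`X` a finite `G_ℚ`-module killed by `P ^ k` (`P` prime), `𝔭` a place of `ℚ̄` over a prime `p ≠ P`,
smooth action, the inertia group `I = 𝔭.I` acting unipotently (`(σ - 1)² = 0`), `Y = X^I`.

* `mzl_delta` (N-δ) : `[X : X^I]² ≤ #X`;
* `mzl_ob` (p-ob) : if moreover some Frobenius `φ` at `𝔭` satisfies `φ² = p²` on `(σ - 1) X`
  (`σ ∈ I`), and `#X ≤ [X : X^I]² · P ^ e` (BONUS), then for every locally constant cocycle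
  `c : G_ℚ → X` there is `m : X` with `P ^ (v_P(p² - 1) + e) • c i = i • m - m` for all `i ∈ I`.
-/
import Fermat.Agent.Lib.Mazur.Locp.Unip
import Fermat.Agent.Lib.Helper6.FrobeniusExists

set_option autoImplicit false
set_option linter.unusedSectionVars false
set_option linter.style.haveILetI false

namespace Fermat.Agent.Mazur

open Fermat.Agent.TW Fermat.Agent.S05Lib

local notation "Qb" => AlgebraicClosure ℚ
local notation "GQ" => (AlgebraicClosure ℚ ≃ₐ[ℚ] AlgebraicClosure ℚ)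

variable {X : Type*} [AddCommGroup X] [DistribMulAction GQ X]

/-- the operator `t - 1` -/
noncomputable def mzlD (t : GQ) : X →+ X where
  toFun x := t • x - x
  map_zero' := by rw [smul_zero, sub_zero]
  map_add' x y := by rw [smul_add]; abel

@[simp] theorem mzlD_apply (t : GQ) (x : X) : mzlD t x = t • x - x := rfl

theorem mzlD_mzlD {t : GQ} (hU : ∀ x : X, t • (t • x - x) = t • x - x) (x : X) :
    mzlD t (mzlD t x) = 0 := by
  rw [mzlD_apply, mzlD_apply, hU, sub_self]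

theorem mzlD_range_le_ker {t : GQ} (hU : ∀ x : X, t • (t • x - x) = t • x - x) :
    (mzlD t : X →+ X).range ≤ (mzlD t : X →+ X).ker := by
  rintro _ ⟨x, rfl⟩
  exact mzlD_mzlD hU x

/-- the set of solutions of `N • c g = g • m - m` is a subgroup -/
def mzlSol (c : GQ → X) (hc : MzsCocycle c) (N : ℕ) (m : X) : Subgroup GQ where
  carrier := {g | N • c g = g • m - m}
  one_mem' := by
    show N • c 1 = (1 : GQ) • m - m
    rw [hc.map_one, one_smul, sub_self, smul_zero]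
  mul_mem' := by
    intro g h hg hh
    have hg' : N • c g = g • m - m := hg
    have hh' : N • c h = h • m - m := hh
    show N • c (g * h) = (g * h) • m - m
    rw [hc g h, smul_add, smul_comm N g, hg', hh', smul_sub, mul_smul]
    abel
  inv_mem' := by
    intro g hg
    have hg' : N • c g = g • m - m := hg
    show N • c g⁻¹ = g⁻¹ • m - m
    have h := hc g⁻¹ g
    rw [inv_mul_cancel, hc.map_one] at h
    have h2 : c g⁻¹ = -(g⁻¹ • c g) := eq_neg_of_add_eq_zero_left h.symm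
    rw [h2, smul_neg, smul_comm N, hg', smul_sub, inv_smul_smul]
    abel

theorem mem_mzlSol {c : GQ → X} {hc : MzsCocycle c} {N : ℕ} {m : X} {g : GQ} :
    g ∈ mzlSol c hc N m ↔ N • c g = g • m - m := Iff.rfl

theorem mzlKer_le_mzlSol {c : GQ → X} (hc : MzsCocycle c) (N : ℕ) (m : X) :
    mzlKer c hc ≤ mzlSol c hc N m := by
  rintro g ⟨h1, h2⟩
  show N • c g = g • m - m
  rw [h1, h2, sub_self, smul_zero]

/-- coprime cancellation in a group killed by `P ^ k` -/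
theorem mzl_cancel {P k a : ℕ} (hcop : Nat.Coprime a P) {z : X} (hz : P ^ k • z = 0)
    (haz : a • z = 0) : z = 0 := by
  have h1 : addOrderOf z ∣ P ^ k := addOrderOf_dvd_of_nsmul_eq_zero hz
  have h2 : addOrderOf z ∣ a := addOrderOf_dvd_of_nsmul_eq_zero haz
  have h3 : addOrderOf z ∣ Nat.gcd a (P ^ k) := Nat.dvd_gcd h2 h1
  have h4 : Nat.gcd a (P ^ k) = 1 := Nat.Coprime.pow_right k hcop
  rw [h4, Nat.dvd_one] at h3
  exact AddMonoid.addOrderOf_eq_one_iff.mp h3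

/-- a fixed point of `t` is fixed by all integer powers of `t` -/
theorem mzl_zpow_smul_fixed {t : GQ} {x : X} (h : t • x = x) (j : ℤ) : t ^ j • x = x := by
  have h1 : t ∈ MulAction.stabilizer GQ x := h
  exact (MulAction.stabilizer GQ x).zpow_mem h1 j

/-- the inertia invariants are the kernel of `t - 1`, `t` a generator -/
theorem mzl_inv_eq_ker (𝔭 : FFPlace) {c : GQ → X} {hc : MzsCocycle c} {t : GQ} (ht : t ∈ 𝔭.I)
    (hgen : ∀ σ ∈ 𝔭.I, ∃ j : ℤ, σ * t ^ (-j) ∈ mzlKer c hc)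
    {Y : AddSubgroup X} (hY : ∀ x : X, x ∈ Y ↔ ∀ i ∈ 𝔭.I, i • x = x) :
    Y = (mzlD t : X →+ X).ker := by
  ext x
  rw [hY, AddMonoidHom.mem_ker, mzlD_apply, sub_eq_zero]
  refine ⟨fun h => h t ht, fun h σ hσ => ?_⟩
  obtain ⟨j, hj⟩ := hgen σ hσ
  have h1 : σ = (σ * t ^ (-j)) * t ^ j := by
    rw [mul_assoc, ← zpow_add, neg_add_cancel, zpow_zero, mul_one]
  rw [h1, mul_smul, mzl_zpow_smul_fixed h, hj.2]

/-- a cocycle vanishing on the inertia group has inertia-invariant values on the decomposition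
group -/
theorem mzl_values_fixed (𝔭 : FFPlace) {c : GQ → X} (hc : MzsCocycle c)
    (h0 : ∀ i ∈ 𝔭.I, c i = 0) {g : GQ} (hg : g ∈ 𝔭.D) {i : GQ} (hi : i ∈ 𝔭.I) :
    i • c g = c g := by
  have h1 : c (i * g) = i • c g := by rw [hc i g, h0 i hi, zero_add]
  have hi' : g⁻¹ * i * g ∈ 𝔭.I := 𝔭.conj_mem_I' hg hi
  have h2 : i * g = g * (g⁻¹ * i * g) := by group
  rw [h2, hc g, h0 _ hi', smul_zero, add_zero] at h1
  exact h1.symm

variable [Finite X]

/-- counting: `#X = #ker · #range` and `[X : ker] = #range` -/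
theorem mzl_card_ker_range (f : X →+ X) :
    Nat.card f.ker * Nat.card f.range = Nat.card X ∧ f.ker.index = Nat.card f.range := by
  have h1 : f.ker.index = Nat.card f.range := AddSubgroup.index_ker f
  refine ⟨?_, h1⟩
  rw [← h1]
  exact AddSubgroup.card_mul_index f.ker

/-- **(N-δ)**: `[X : X^I]² ≤ #X` for a unipotent action of the inertia group -/
theorem mzl_delta (𝔭 : FFPlace) {P k : ℕ} (hcop : Nat.Coprime P 𝔭.p)
    (hPk : ∀ x : X, P ^ k • x = 0)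
    (hsm : ∀ x : X, IsLocallyConstant (fun g : GQ => g • x))
    (hU : ∀ σ ∈ 𝔭.I, ∀ x : X, σ • (σ • x - x) = σ • x - x)
    {Y : AddSubgroup X} (hY : ∀ x : X, x ∈ Y ↔ ∀ i ∈ 𝔭.I, i • x = x) :
    Y.index ^ 2 ≤ Nat.card X := by
  obtain ⟨t, ht, hgen, -⟩ := mzl_exists_generator 𝔭 (mzsCocycle_zero (G := GQ) (X := X))
    (IsLocallyConstant.const 0) hsm hcop hPk hU
  have hYK := mzl_inv_eq_ker 𝔭 ht hgen hY
  obtain ⟨h1, h2⟩ := mzl_card_ker_range (mzlD t : X →+ X)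
  have h3 : Nat.card (mzlD t : X →+ X).range ≤ Nat.card (mzlD t : X →+ X).ker :=
    AddSubgroup.card_le_of_le (mzlD_range_le_ker (hU t ht))
  rw [hYK, h2, ← h1, sq]
  exact Nat.mul_le_mul_right _ h3

/-- a subgroup `R ≤ K` with `#K ≤ #R · P ^ e` in a group killed by `P ^ k`: `P ^ e • K ⊆ R` -/
theorem mzl_pow_smul_mem {P k e : ℕ} (hP : P.Prime) (hPk : ∀ x : X, P ^ k • x = 0)
    {R K : AddSubgroup X} (hRK : R ≤ K) (hcard : Nat.card K ≤ Nat.card R * P ^ e)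
    {x : X} (hx : x ∈ K) : P ^ e • x ∈ R := by
  set R' : AddSubgroup K := R.addSubgroupOf K with hR'
  have h1 : Nat.card R' = Nat.card R :=
    Nat.card_congr (AddSubgroup.addSubgroupOfEquivOfLe hRK).toEquiv
  have h2 : Nat.card R' * R'.index = Nat.card K := AddSubgroup.card_mul_index R'
  have hRpos : 0 < Nat.card R := Nat.card_pos
  have h3 : R'.index ≤ P ^ e := by
    rw [← h2, h1] at hcard
    exact Nat.le_of_mul_le_mul_left hcard hRpos
  -- the class of `x`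
  set q : K ⧸ R' := QuotientAddGroup.mk ⟨x, hx⟩ with hq
  have h4 : P ^ k • q = 0 := by
    rw [hq, ← QuotientAddGroup.mk_nsmul]
    have : P ^ k • (⟨x, hx⟩ : K) = 0 := Subtype.ext (by simpa using hPk x)
    rw [this, QuotientAddGroup.mk_zero]
  obtain ⟨i, -, hi⟩ := (Nat.dvd_prime_pow hP).mp (addOrderOf_dvd_of_nsmul_eq_zero h4)
  have h5 : addOrderOf q ∣ Nat.card (K ⧸ R') := addOrderOf_dvd_natCard q
  have h6 : Nat.card (K ⧸ R') = R'.index := rfl
  have h7 : P ^ i ≤ P ^ e := by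
    rw [← hi]
    refine le_trans (Nat.le_of_dvd ?_ h5) (h6 ▸ h3)
    exact Nat.card_pos
  have h8 : i ≤ e := (Nat.pow_le_pow_iff_right hP.one_lt).mp h7
  have h9 : P ^ e • q = 0 := by
    obtain ⟨d, rfl⟩ := Nat.exists_eq_add_of_le h8
    rw [pow_add, mul_nsmul, ← hi, addOrderOf_nsmul_eq_zero, smul_zero]
  rw [hq, ← QuotientAddGroup.mk_nsmul, QuotientAddGroup.eq_zero_iff, hR',
    AddSubgroup.mem_addSubgroupOf] at h9
  simpa using h9

/-- **(p-ob)**: a power of `P` independent of `X` kills the obstruction at `𝔭` -/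
theorem mzl_ob (𝔭 : FFPlace) {P k : ℕ} (hP : P.Prime) (hcop : Nat.Coprime P 𝔭.p)
    (hPk : ∀ x : X, P ^ k • x = 0)
    (hsm : ∀ x : X, IsLocallyConstant (fun g : GQ => g • x))
    (hU : ∀ σ ∈ 𝔭.I, ∀ x : X, σ • (σ • x - x) = σ • x - x)
    (hF : ∃ φ : GQ, 𝔭.P.IsFrobeniusAt φ 𝔭.p ∧
      ∀ σ ∈ 𝔭.I, ∀ x : X, φ • φ • (σ • x - x) = (𝔭.p ^ 2) • (σ • x - x))
    {Y : AddSubgroup X} (hY : ∀ x : X, x ∈ Y ↔ ∀ i ∈ 𝔭.I, i • x = x)
    {e : ℕ} (hbonus : Nat.card X ≤ Y.index ^ 2 * P ^ e)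
    {c : GQ → X} (hc : MzsCocycle c) (hlc : IsLocallyConstant c) :
    ∃ m : X, ∀ i ∈ 𝔭.I, (P ^ ((𝔭.p ^ 2 - 1).factorization P + e)) • c i = i • m - m := by
  obtain ⟨t, ht, hgen, hfrob⟩ := mzl_exists_generator 𝔭 hc hlc hsm hcop hPk hU
  obtain ⟨φ, hφ, hφ2⟩ := hF
  have hUt := hU t ht
  set p := 𝔭.p with hp
  set n : X := c t with hn
  set b : ℕ := (p ^ 2 - 1).factorization P with hb
  -- the Frobenius relation
  obtain ⟨hw1, hw2⟩ := hfrob φ hφ
  set w : GQ := φ * t * φ⁻¹ * t ^ (-(p : ℤ)) with hw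
  have hrel : φ * t = w * (t ^ p * φ) := by
    rw [hw, zpow_neg, zpow_natCast]
    group
  -- (**) : `φ (t - 1) x = p (t - 1) φ x`
  have hstar2 : ∀ x : X, φ • mzlD t x = p • mzlD t (φ • x) := fun x => by
    have h1 : (φ * t) • x = (w * (t ^ p * φ)) • x := by rw [hrel]
    rw [mul_smul, mul_smul, hw2, mul_smul, mzl_pow_smul hUt] at h1
    rw [mzlD_apply, mzlD_apply, smul_sub, h1]
    abel
  -- (*) : `φ n = p n + (p choose 2) (t - 1) n + p (t - 1) c(φ)`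
  have hstar1 : φ • n = p • n + (p.choose 2) • mzlD t n + p • mzlD t (c φ) := by
    have h1 : c (φ * t) = c (w * (t ^ p * φ)) := by rw [hrel]
    rw [hc φ t, hc w, hw1, zero_add, hw2, hc (t ^ p) φ, mzl_cocycle_pow hc hUt,
      mzl_pow_smul hUt] at h1
    have h2 : c φ + φ • n = c φ + (p • n + (p.choose 2) • mzlD t n + p • mzlD t (c φ)) := by
      rw [h1, mzlD_apply, mzlD_apply]
      abel
    exact add_left_cancel h2
  -- `(t - 1) φ n = p (t - 1) n`
  have h3 : mzlD t (φ • n) = p • mzlD t n := by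
    rw [hstar1, map_add, map_add, map_nsmul, map_nsmul, map_nsmul, mzlD_mzlD hUt, mzlD_mzlD hUt,
      smul_zero, smul_zero, add_zero, add_zero]
  -- `φ (t - 1) n = p² (t - 1) n`
  have h4 : φ • mzlD t n = (p ^ 2) • mzlD t n := by
    rw [hstar2, h3, sq, mul_nsmul]
  -- `(F)`
  have h5 : φ • φ • mzlD t n = (p ^ 2) • mzlD t n := hφ2 t ht n
  have hp2pos : 0 < p ^ 2 := pow_pos 𝔭.hp.pos 2
  have h6 : (p ^ 2) • ((p ^ 2 - 1) • mzlD t n) = 0 := by
    have h7 : φ • φ • mzlD t n = (p ^ 2) • ((p ^ 2) • mzlD t n) := by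
      rw [h4, smul_comm, h4]
    rw [h5] at h7
    have h8 : p ^ 2 = (p ^ 2 - 1) + 1 := by omega
    have h9 : (p ^ 2) • mzlD t n = (p ^ 2 - 1) • mzlD t n + mzlD t n := by
      conv_lhs => rw [h8]
      rw [add_nsmul, one_nsmul]
    rw [h9, smul_add] at h7
    rw [← h9] at h7
    -- h7 : p² Dn = p² ((p²-1) Dn) + p² Dn
    exact (left_eq_add.mp (by rw [add_comm] at h7; exact h7))
  have hcopp2 : Nat.Coprime (p ^ 2) P := (Nat.Coprime.pow_right 2 hcop).symm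
  have h10 : (p ^ 2 - 1) • mzlD t n = 0 :=
    mzl_cancel hcopp2 (by rw [← smul_comm]; rw [hPk]; exact smul_zero _) h6
  -- `P ^ b • n ∈ ker (t - 1)`
  have hne : p ^ 2 - 1 ≠ 0 := by
    have : 2 ≤ p := 𝔭.hp.two_le
    have : 4 ≤ p ^ 2 := by nlinarith
    omega
  have h11 : P ^ b * ((p ^ 2 - 1) / P ^ b) = p ^ 2 - 1 :=
    Nat.ordProj_mul_ordCompl_eq_self (p ^ 2 - 1) P
  have h12 : Nat.Coprime ((p ^ 2 - 1) / P ^ b) P := (Nat.coprime_ordCompl hP hne).symm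
  have h13 : P ^ b • mzlD t n = 0 := by
    refine mzl_cancel h12 (hPk _) ?_
    rw [← mul_nsmul, h11, h10]
  have h14 : P ^ b • n ∈ (mzlD t : X →+ X).ker := by
    rw [AddMonoidHom.mem_ker, map_nsmul, h13]
  -- the bonus bound
  have hYK := mzl_inv_eq_ker 𝔭 ht hgen hY
  obtain ⟨hc1, hc2⟩ := mzl_card_ker_range (mzlD t : X →+ X)
  have hRK := mzlD_range_le_ker hUt
  have hcard : Nat.card (mzlD t : X →+ X).ker ≤ Nat.card (mzlD t : X →+ X).range * P ^ e := by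
    rw [hYK, hc2, ← hc1, sq] at hbonus
    have hRpos : 0 < Nat.card (mzlD t : X →+ X).range := Nat.card_pos
    have h15 : Nat.card (mzlD t : X →+ X).range * Nat.card (mzlD t : X →+ X).ker ≤
        Nat.card (mzlD t : X →+ X).range * (Nat.card (mzlD t : X →+ X).range * P ^ e) := by
      rw [mul_comm (Nat.card (mzlD t : X →+ X).range) (Nat.card (mzlD t : X →+ X).ker), ← mul_assoc]
      exact hbonus
    exact Nat.le_of_mul_le_mul_left h15 hRpos
  obtain ⟨m, hm⟩ := mzl_pow_smul_mem hP hPk hRK hcard h14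
  -- conclusion
  refine ⟨m, fun i hi => ?_⟩
  have hN : (P ^ (b + e)) • n = t • m - m := by
    rw [pow_add, mul_nsmul, ← hm, mzlD_apply]
  have htS : t ∈ mzlSol c hc (P ^ (b + e)) m := hN
  obtain ⟨j, hj⟩ := hgen i hi
  have h16 : i = (i * t ^ (-j)) * t ^ j := by
    rw [mul_assoc, ← zpow_add, neg_add_cancel, zpow_zero, mul_one]
  have h17 : i ∈ mzlSol c hc (P ^ (b + e)) m := by
    rw [h16]
    exact Subgroup.mul_mem _ (mzlKer_le_mzlSol hc _ _ hj) (Subgroup.zpow_mem _ htS j)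
  exact h17

/-- (p-ob) in the form used by the Kummer map: `c = P ^ a • c₁ + d m₀` -/
theorem mzl_ob' (𝔭 : FFPlace) {P k : ℕ} (hP : P.Prime) (hcop : Nat.Coprime P 𝔭.p)
    (hPk : ∀ x : X, P ^ k • x = 0)
    (hsm : ∀ x : X, IsLocallyConstant (fun g : GQ => g • x))
    (hU : ∀ σ ∈ 𝔭.I, ∀ x : X, σ • (σ • x - x) = σ • x - x)
    (hF : ∃ φ : GQ, 𝔭.P.IsFrobeniusAt φ 𝔭.p ∧
      ∀ σ ∈ 𝔭.I, ∀ x : X, φ • φ • (σ • x - x) = (𝔭.p ^ 2) • (σ • x - x))
    {Y : AddSubgroup X} (hY : ∀ x : X, x ∈ Y ↔ ∀ i ∈ 𝔭.I, i • x = x)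
    {e : ℕ} (hbonus : Nat.card X ≤ Y.index ^ 2 * P ^ e)
    {c₁ : GQ → X} (hc₁ : MzsCocycle c₁) (hlc₁ : IsLocallyConstant c₁) (m₀ : X) :
    ∃ m : X, ∀ i ∈ 𝔭.I,
      (P ^ ((𝔭.p ^ 2 - 1).factorization P + e)) • c₁ i + (i • m₀ - m₀) = i • m - m := by
  obtain ⟨m₁, hm₁⟩ := mzl_ob 𝔭 hP hcop hPk hsm hU hF hY hbonus hc₁ hlc₁
  refine ⟨m₁ + m₀, fun i hi => ?_⟩
  rw [hm₁ i hi, smul_add]
  abel

end Fermat.Agent.Mazur
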