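/-
MAZUR (Track M), package (p) (helper5), part 3: **the inertia image is toric**.

For `q ∥ N' q`, `A | q`, `σ` in the inertia group at `A`, `φ` a Frobenius element at `A` and `y` in the
Kummer group `tWsub ℚ̄ (N' q) m` (`m` prime to `q`):
  `φ² (σ y / y) = (σ y / y) ^ (q²) · t ^ m`,
i.e. `φ² = q²` on `(σ - 1) J[m]` (the hypothesis (F) of `mzl_ob`, in Kummer language).

Proof: at a level `H`, the unit normalisation of T2-G (`t2g_normalise`) shows that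
`z = σ(f_y) / (f_y η ^ m)` is a `1`-unit for the two Gauss valuations; this is exactly the hypothesis
of the toric theorem `t2ft_main` of T2-F (helper4) for the Kummer function `σ y / y`.  Then the level
`H` is arbitrary (`t2fs_exists_level`), and the level `N'` is raised to `4 ∣ N'` or `9 ∣ N'` as in
`T2/F/ToricLevel.lean`.
-/
import Fermat.Agent.Lib.T2.F.ToricFinal
import Fermat.Agent.Lib.T2.Gal.Adapter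

set_option autoImplicit false
set_option linter.unusedSectionVars false
set_option linter.unusedVariables false
set_option linter.style.haveILetI false
set_option synthInstance.maxHeartbeats 400000

namespace Fermat.Agent.Mazur

open ModularCurve Module AlgebraicCurve IntermediateField Fermat.Agent.Curve
  Fermat.Agent.T1 Fermat.Agent.TW Fermat.Agent.S24Lib HahnSeries Fermat.Agent.T2

local notation "Qb" => AlgebraicClosure ℚ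
local notation "GQ" => (AlgebraicClosure ℚ ≃ₐ[ℚ] AlgebraicClosure ℚ)

attribute [local instance] t2i_dvr t2i_isAlgClosed t2i_charP t2i_fact
attribute [local instance] t2iAlgebra t2i_isScalarTower

noncomputable section

section Main

variable (𝔓 : FFPlace) (N' : ℕ) [NeZero N'] (h : ¬ 𝔓.p ∣ N') (H : Subgroup 𝔓.I) [H.FiniteIndex]
  [H.Normal] (φ : GQ) (hφ : T2fsStab 𝔓 H φ)

include hφ in
set_option maxHeartbeats 16000000 in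
/-- **the toric congruence for `σ y / y`, `y` coming from the level `H`** -/
theorem mzlt_main (hF : 𝔓.P.IsFrobeniusAt φ 𝔓.p) {n : ℕ}
    (su : T2Setup (t2iBase2Fix 𝔓 H N' h) (Fin n)) {Q₀ : ℕ} (hQ₀ : 2 ≤ Q₀)
    (hx : su.x = t2gaX 𝔓 H N' h Q₀)
    (hn : (su.n : ℤ) = finrank ↥Qb⟮tbPhiF 𝔓 (N' * 𝔓.p) H su.x⟯
      ↥(modularFunctionFieldBar (N' * 𝔓.p)))
    (hc : su.c = 1 - CurveP.genusR Qb ↥(modularFunctionFieldBar (N' * 𝔓.p)))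
    (hFR : ∀ r r' : ↥(t2R (k := IsLocalRing.ResidueField ↥𝔓.P) su.xb),
      (((r' : ↥(tbBarF 𝔓 N') × ↥(tbBarF 𝔓 N')).1 : ↥(tbBarF 𝔓 N')) :
          LaurentSeries (IsLocalRing.ResidueField ↥𝔓.P)) =
        coeffMap (frobenius (IsLocalRing.ResidueField ↥𝔓.P) 𝔓.p)
          (coeffMap (frobenius (IsLocalRing.ResidueField ↥𝔓.P) 𝔓.p)
            (((r : ↥(tbBarF 𝔓 N') × ↥(tbBarF 𝔓 N')).1 : ↥(tbBarF 𝔓 N')) :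
              LaurentSeries (IsLocalRing.ResidueField ↥𝔓.P))) →
      (((r' : ↥(tbBarF 𝔓 N') × ↥(tbBarF 𝔓 N')).2 : ↥(tbBarF 𝔓 N')) :
          LaurentSeries (IsLocalRing.ResidueField ↥𝔓.P)) =
        coeffMap (frobenius (IsLocalRing.ResidueField ↥𝔓.P) 𝔓.p)
          (coeffMap (frobenius (IsLocalRing.ResidueField ↥𝔓.P) 𝔓.p)
            (((r : ↥(tbBarF 𝔓 N') × ↥(tbBarF 𝔓 N')).2 : ↥(tbBarF 𝔓 N')) :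
              LaurentSeries (IsLocalRing.ResidueField ↥𝔓.P))) →
      su.ev r' = su.ev r ^ (𝔓.p ^ 2))
    (σ : 𝔓.I)
    {y : (↥(modularFunctionFieldBar (N' * 𝔓.p)))ˣ} (hy : y ∈ tWsub Qb (N' * 𝔓.p) su.m)
    (fy : ↥(tbLevF 𝔓 (N' * 𝔓.p) H))
    (hfy : tbPhiF 𝔓 (N' * 𝔓.p) H fy = (y : ↥(modularFunctionFieldBar (N' * 𝔓.p)))) :
    ∃ t : (↥(modularFunctionFieldBar (N' * 𝔓.p)))ˣ,
      tkrSig (N' * 𝔓.p) φ (tkrSig (N' * 𝔓.p) φ (tkrSig (N' * 𝔓.p) ((σ : 𝔓.I) : GQ) y * y⁻¹))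
        = (tkrSig (N' * 𝔓.p) ((σ : 𝔓.I) : GQ) y * y⁻¹) ^ (𝔓.p ^ 2) * t ^ su.m := by
  classical
  have hunit : ∀ (g : ↥(tbLevF 𝔓 (N' * 𝔓.p) H))
      (hg : g ∈ (t2gpInput 𝔓 N' h H (t2gmFrob 𝔓 N')).G),
      (t2gpInput 𝔓 N' h H (t2gmFrob 𝔓 N')).ρ ⟨g, hg⟩ ≠ 0 →
        g⁻¹ ∈ (t2gpInput 𝔓 N' h H (t2gmFrob 𝔓 N')).G :=
    t2gp_unit (tbFixO 𝔓 H) (tbFixRes 𝔓 H) (tbFixRes_surjective 𝔓 H)
      (t2gp_natCast_ne_zero 𝔓 N' h) (t2gpW 𝔓 N' h H) (t2gmFrob 𝔓 N')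
  have hnorm : ∀ f : ↥(tbLevF 𝔓 (N' * 𝔓.p) H), f ≠ 0 → ∃ c : ↥(tbFix 𝔓 H), c ≠ 0 ∧
      ∃ hc : c • f ∈ (t2gpInput 𝔓 N' h H (t2gmFrob 𝔓 N')).G,
        (t2gpInput 𝔓 N' h H (t2gmFrob 𝔓 N')).ρ ⟨c • f, hc⟩ ≠ 0 :=
    t2gp_norm (tbFixO 𝔓 H) (tbFixRes 𝔓 H) (tbFixRes_surjective 𝔓 H)
      (t2gp_natCast_ne_zero 𝔓 N' h) (t2gpW 𝔓 N' h H) (t2gmFrob 𝔓 N')
  obtain ⟨e, he₁, he₂, hρe₁, hρe₂⟩ : ∃ (e : ↥(tbLevF 𝔓 (N' * 𝔓.p) H))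
      (he₁ : e ∈ (t2gpInput 𝔓 N' h H (t2gmFrob 𝔓 N')).G)
      (he₂ : e ∈ (t2gpInput 𝔓 N' h H (t2gmFrob 𝔓 N')).G₂),
      (t2gpInput 𝔓 N' h H (t2gmFrob 𝔓 N')).ρ ⟨e, he₁⟩ = 1 ∧
        (t2gpInput 𝔓 N' h H (t2gmFrob 𝔓 N')).ρG₂ ⟨e, he₂⟩ = 0 :=
    t2gp_exists_e (tbFixO 𝔓 H) (tbFixRes 𝔓 H)
      (tbFixRes_surjective 𝔓 H) (t2gp_natCast_ne_zero 𝔓 N' h) (t2gpW 𝔓 N' h H) (t2gmFrob 𝔓 N')
  have hfy0 : fy ≠ 0 := by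
    rintro rfl
    rw [map_zero] at hfy
    exact y.ne_zero hfy.symm
  -- unit normalisation (T2-G)
  obtain ⟨η, hη0, hηG₁, hηG₂, hηi₁, hηi₂, hz₁, hz₂, hρz₁, hρz₂⟩ :=
    t2g_normalise (t2iBase2Fix 𝔓 H N' h).A (t2iBase2Fix 𝔓 H N' h).resA
      (t2iBase2Fix 𝔓 H N' h).resA_surj
      (t2gpInput 𝔓 N' h H (t2gmFrob 𝔓 N')).G (t2gpInput 𝔓 N' h H (t2gmFrob 𝔓 N')).ρ
      (t2gpInput 𝔓 N' h H (t2gmFrob 𝔓 N')).G₂ (t2gpInput 𝔓 N' h H (t2gmFrob 𝔓 N')).ρG₂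
      (fun a => ((t2gpInput 𝔓 N' h H (t2gmFrob 𝔓 N')).algebraMap_mem_Ov a).1)
      (fun a => (t2gpInput 𝔓 N' h H (t2gmFrob 𝔓 N')).ρ_algebraMap a _)
      hunit hnorm
      (fun a => (t2gpInput 𝔓 N' h H (t2gmFrob 𝔓 N')).algebraMap_mem_G₂ a)
      (fun a => (t2gpInput 𝔓 N' h H (t2gmFrob 𝔓 N')).ρG₂_algebraMap a)
      ((t2gpInput 𝔓 N' h H (t2gmFrob 𝔓 N')).inv_mem_G₂ hunit)
      ((t2gpInput 𝔓 N' h H (t2gmFrob 𝔓 N')).normalize_G₂ hnorm)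
      (t2gsF 𝔓 H σ (N' * 𝔓.p)) (t2gsL 𝔓 H σ : ↥(tbFix 𝔓 H) ≃+* ↥(tbFix 𝔓 H))
      (t2gsF_algebraMap 𝔓 H σ (N' * 𝔓.p)) (fun c hc => t2gsL_div_mem 𝔓 H σ c hc)
      (t2gp_sigma_G 𝔓 N' h H (t2gmFrob 𝔓 N') σ) (t2gp_sigma_ρ 𝔓 N' h H (t2gmFrob 𝔓 N') σ)
      (t2gp_sigma_G₂ 𝔓 N' h H (t2gmFrob 𝔓 N') σ) (t2gp_sigma_ρG₂ 𝔓 N' h H (t2gmFrob 𝔓 N') σ)
      e he₁ he₂ hρe₁ hρe₂ su.m (fun c => IsAlgClosed.exists_pow_nat_eq c su.m_pos) fy hfy0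
  -- the Kummer function `σ y / y` at the level `H`
  set fy' : ↥(tbLevF 𝔓 (N' * 𝔓.p) H) := t2gsF 𝔓 H σ (N' * 𝔓.p) fy / fy with hfy'
  have hy' : tkrSig (N' * 𝔓.p) ((σ : 𝔓.I) : GQ) y * y⁻¹ ∈ tWsub Qb (N' * 𝔓.p) su.m :=
    (tWsub Qb (N' * 𝔓.p) su.m).mul_mem (tkrSig_mem_tWsub (N' * 𝔓.p) su.m _ hy)
      ((tWsub Qb (N' * 𝔓.p) su.m).inv_mem hy)
  have hΦ : tbPhiF 𝔓 (N' * 𝔓.p) H fy'
      = ((tkrSig (N' * 𝔓.p) ((σ : 𝔓.I) : GQ) y * y⁻¹ : (↥(modularFunctionFieldBar (N' * 𝔓.p)))ˣ) :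
          ↥(modularFunctionFieldBar (N' * 𝔓.p))) := by
    rw [hfy', map_div₀, tbPhiF_t2gsF, hfy, Units.val_mul, Units.val_inv_eq_inv_val,
      div_eq_mul_inv]
    rfl
  have hid₁ : fy' * (η⁻¹) ^ su.m = t2gsF 𝔓 H σ (N' * 𝔓.p) fy / (fy * η ^ su.m) := by
    rw [hfy', inv_pow, div_mul_eq_mul_div, div_eq_mul_inv, div_eq_mul_inv, mul_inv, mul_assoc,
      mul_comm ((η ^ su.m)⁻¹)]
  have hwη0 : t2wLev 𝔓 H N' 𝔓.p h η ≠ 0 := (map_ne_zero _).mpr hη0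
  have hid₂ : t2wLev 𝔓 H N' 𝔓.p h fy' * ((t2wLev 𝔓 H N' 𝔓.p h η)⁻¹) ^ su.m
      = (t2gpInput 𝔓 N' h H (t2gmFrob 𝔓 N')).w
        (t2gsF 𝔓 H σ (N' * 𝔓.p) fy / (fy * η ^ su.m)) := by
    show _ = t2wLev 𝔓 H N' 𝔓.p h (t2gsF 𝔓 H σ (N' * 𝔓.p) fy / (fy * η ^ su.m))
    rw [← hid₁, map_mul, map_pow, map_inv₀]
  have hG₁ : TbGauss (tbFixO 𝔓 H) (tbFixRes 𝔓 H)
      ((fy' * (η⁻¹) ^ su.m : ↥(tbLevF 𝔓 (N' * 𝔓.p) H)) : LaurentSeries ↥(tbFix 𝔓 H)) := by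
    rw [hid₁]
    exact hz₁
  have hρ₁ : tbRhoFun (tbFixO 𝔓 H) (tbFixRes 𝔓 H)
      ((fy' * (η⁻¹) ^ su.m : ↥(tbLevF 𝔓 (N' * 𝔓.p) H)) : LaurentSeries ↥(tbFix 𝔓 H)) = 1 := by
    rw [hid₁, tbf_rhoFun_eq]
    exact hρz₁
  have hG₂ : TbGauss (tbFixO 𝔓 H) (tbFixRes 𝔓 H)
      ((t2wLev 𝔓 H N' 𝔓.p h fy' * ((t2wLev 𝔓 H N' 𝔓.p h η)⁻¹) ^ su.m :
        ↥(tbLevF 𝔓 (N' * 𝔓.p) H)) : LaurentSeries ↥(tbFix 𝔓 H)) := by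
    rw [hid₂]
    exact hz₂
  have hρ₂ : tbRhoFun (tbFixO 𝔓 H) (tbFixRes 𝔓 H)
      ((t2wLev 𝔓 H N' 𝔓.p h fy' * ((t2wLev 𝔓 H N' 𝔓.p h η)⁻¹) ^ su.m :
        ↥(tbLevF 𝔓 (N' * 𝔓.p) H)) : LaurentSeries ↥(tbFix 𝔓 H)) = 1 := by
    rw [hid₂, tbf_rhoFun_eq]
    exact hρz₂
  exact t2ft_main 𝔓 N' h H φ hφ hF su hQ₀ hx hn hc hFR hy' fy' η⁻¹ (t2wLev 𝔓 H N' 𝔓.p h η)⁻¹ hΦ
    (inv_ne_zero hη0) (inv_ne_zero hwη0) hG₁ hρ₁ hG₂ hρ₂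

end Main

end

end Fermat.Agent.Mazur
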