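/-
MAZUR (Track M), package (p) (helper5), part 4: **the inertia image is toric, at all levels**.

`mzlt_toric`: for `q ∤ N'`, `A | q`, `φ` a Frobenius element at `A`, `m` prime to `q`, `σ` in the
inertia group at `A` and `y ∈ tWsub ℚ̄ (N' q) m`:
  `φ (φ (σ y / y)) = (σ y / y) ^ (q²) · t ^ m`.
First at the levels with `4 ∣ N'` or `9 ∣ N'` (`mzlt_good`, from `mzlt_main` and the export
`t2i_export` of T2-C), then descent of the level (`mzlt_of_mul`, as in `T2/F/ToricLevel.lean`).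
-/
import Fermat.Agent.Lib.Mazur.Locp.Toric

set_option autoImplicit false
set_option linter.unusedSectionVars false
set_option linter.unusedVariables false
set_option linter.style.haveILetI false
set_option synthInstance.maxHeartbeats 400000

namespace Fermat.Agent.Mazur

open ModularCurve HahnSeries AlgebraicCurve Fermat.Agent.T1 Fermat.Agent.S24Lib Fermat.Agent.TW
  Fermat.Agent.T2
open ModularGroup (S T)

local notation "Qb" => AlgebraicClosure ℚ
local notation "GQ" => (AlgebraicClosure ℚ ≃ₐ[ℚ] AlgebraicClosure ℚ)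

/-- **the toric congruence for the inertia image at the level `N' q`** -/
def MzltAt (N' q : ℕ) [NeZero N'] [Fact q.Prime] : Prop :=
  ∀ A : ValuationSubring Qb, A.LiesOverPrime q → ∀ φ : GQ, A.IsFrobeniusAt φ q →
    ∀ m : ℕ, Nat.Coprime m q → m ≠ 0 → ∀ σ ∈ A.inertiaSubgroupIn ℚ,
      ∀ y : (↥(modularFunctionFieldBar (N' * q)))ˣ, y ∈ tWsub Qb (N' * q) m →
        ∃ t : (↥(modularFunctionFieldBar (N' * q)))ˣ,
          tkrSig (N' * q) φ (tkrSig (N' * q) φ (tkrSig (N' * q) σ y * y⁻¹))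
            = (tkrSig (N' * q) σ y * y⁻¹) ^ (q ^ 2) * t ^ m

set_option maxHeartbeats 4000000 in
/-- the good levels `4 ∣ N'` or `9 ∣ N'` -/
theorem mzlt_good (hE : T2fExport) (N' q : ℕ) [NeZero N'] [hq : Fact q.Prime] (h : ¬ q ∣ N')
    (h49 : 4 ∣ N' ∨ 9 ∣ N') : MzltAt N' q := by
  classical
  intro A hA φ hF m hm hm0 σ hσ y hy
  set 𝔓 : FFPlace := ⟨A, q, hq.out, hA⟩ with h𝔓
  obtain ⟨H, hHfin, hHnorm, hstab, hT⟩ := t2fs_exists_level 𝔓 (N' * q)
    {(y : ↥(modularFunctionFieldBar (N' * q)))}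
  haveI := hHfin
  haveI := hHnorm
  obtain ⟨fy, hfy⟩ := hT (y : ↥(modularFunctionFieldBar (N' * q))) (by simp)
  obtain ⟨Q₀, hQ₀, hall⟩ := hE 𝔓 N' h h49 m hm
  obtain ⟨n, su, hsm, hx, hn, hc, hFR⟩ := hall H
  subst hsm
  have hφ : T2fsStab 𝔓 H φ := hstab φ hF.mem_decompositionSubgroup
  exact mzlt_main 𝔓 N' h H φ hφ hF su hQ₀ hx hn hc hFR ⟨σ, hσ⟩ hy fy hfy

/-- descent of `m`-th roots along `F_{N' q} ⊆ F_{N' e q}` for Kummer functions -/
theorem mzlt_root_descend (N' q e : ℕ) [NeZero N'] [NeZero e] [hq : Fact q.Prime] {m : ℕ}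
    (hm0 : m ≠ 0) {u : (↥(modularFunctionFieldBar (N' * q)))ˣ} (huW : u ∈ tWsub Qb (N' * q) m)
    {ts : (↥(modularFunctionFieldBar (N' * e * q)))ˣ} (hιu : t2flIncU N' q e u = ts ^ m) :
    ∃ t : (↥(modularFunctionFieldBar (N' * q)))ˣ, u = t ^ m := by
  have hcoe : ((ts : ↥(modularFunctionFieldBar (N' * e * q))) : LaurentSeries Qb) ^ m
      = ((u : ↥(modularFunctionFieldBar (N' * q))) : LaurentSeries Qb) := by
    rw [← coe_t2flIncU N' q e u, hιu, Units.val_pow_eq_pow_val, SubmonoidClass.coe_pow]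
  have htsmem : ((ts : ↥(modularFunctionFieldBar (N' * e * q))) : LaurentSeries Qb)
      ∈ modularFunctionFieldBar (N' * q * e) := by
    have key : ∀ z : LaurentSeries Qb, z ∈ modularFunctionFieldBar (N' * e * q) →
        z ∈ modularFunctionFieldBar (N' * q * e) := by
      intro z hz
      rwa [Nat.mul_right_comm] at hz
    exact key _ (ts : ↥(modularFunctionFieldBar (N' * e * q))).2
  have hgN : ((ts : ↥(modularFunctionFieldBar (N' * e * q))) : LaurentSeries Qb)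
      ∈ modularFunctionFieldBar (N' * q) :=
    tkr_root_descend_mul hm0 e (NeZero.ne e) (N' * q) (u : ↥(modularFunctionFieldBar (N' * q))).2
      htsmem hcoe (tdd_cusp_dvd (N' * q) m u huW S)
  have hg0 : (⟨((ts : ↥(modularFunctionFieldBar (N' * e * q))) : LaurentSeries Qb), hgN⟩ :
      ↥(modularFunctionFieldBar (N' * q))) ≠ 0 := by
    intro h0
    have h3 : ((ts : ↥(modularFunctionFieldBar (N' * e * q))) : LaurentSeries Qb) = 0 :=
      congrArg Subtype.val h0
    have h4 : (ts : ↥(modularFunctionFieldBar (N' * e * q))) = 0 := Subtype.ext h3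
    exact ts.ne_zero h4
  refine ⟨Units.mk0 _ hg0, ?_⟩
  apply Units.ext
  apply Subtype.ext
  rw [Units.val_pow_eq_pow_val, Units.val_mk0, SubmonoidClass.coe_pow]
  exact hcoe.symm

/-- **descent of the level**: the statement at the level `N' e q` implies the statement at the
level `N' q` -/
theorem mzlt_of_mul (N' q e : ℕ) [NeZero N'] [NeZero e] [hq : Fact q.Prime]
    (hup : MzltAt (N' * e) q) : MzltAt N' q := by
  intro A hA φ hφ m hm hm0 σ hσ y hy
  have hy' : t2flIncU N' q e y ∈ tWsub Qb (N' * e * q) m := t2fl_tWsub N' q e m hy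
  obtain ⟨ts, hts⟩ := hup A hA φ hφ m hm hm0 σ hσ (t2flIncU N' q e y) hy'
  set y₁ : (↥(modularFunctionFieldBar (N' * q)))ˣ := tkrSig (N' * q) σ y * y⁻¹ with hy₁
  have hy₁W : y₁ ∈ tWsub Qb (N' * q) m :=
    (tWsub Qb (N' * q) m).mul_mem (tkrSig_mem_tWsub (N' * q) m σ hy)
      ((tWsub Qb (N' * q) m).inv_mem hy)
  have hιy₁ : t2flIncU N' q e y₁
      = tkrSig (N' * e * q) σ (t2flIncU N' q e y) * (t2flIncU N' q e y)⁻¹ := by
    rw [hy₁, map_mul, map_inv, ← t2fl_sig]
  set u : (↥(modularFunctionFieldBar (N' * q)))ˣ :=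
    tkrSig (N' * q) φ (tkrSig (N' * q) φ y₁) * (y₁ ^ (q ^ 2))⁻¹ with hu
  have huW : u ∈ tWsub Qb (N' * q) m :=
    (tWsub Qb (N' * q) m).mul_mem
      (tkrSig_mem_tWsub (N' * q) m φ (tkrSig_mem_tWsub (N' * q) m φ hy₁W))
      ((tWsub Qb (N' * q) m).inv_mem ((tWsub Qb (N' * q) m).pow_mem hy₁W (q ^ 2)))
  have hιu : t2flIncU N' q e u = ts ^ m := by
    rw [hu, map_mul, map_inv, map_pow, ← t2fl_sig, ← t2fl_sig, hιy₁, hts]
    exact mul_inv_cancel_comm _ _
  obtain ⟨t, ht⟩ := mzlt_root_descend N' q e hm0 huW hιu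
  refine ⟨t, ?_⟩
  rw [← ht, hu, mul_comm (y₁ ^ (q ^ 2)), inv_mul_cancel_right]

/-- **the inertia image is toric**: `φ² = q²` on `(σ - 1) J[m]`, in Kummer language -/
theorem mzlt_toric (N' q : ℕ) [NeZero N'] [hq : Fact q.Prime] (h : ¬ q ∣ N') : MzltAt N' q := by
  by_cases h2 : q = 2
  · have h' : ¬ q ∣ N' * 9 := by
      intro hdvd
      rcases (Nat.Prime.dvd_mul hq.out).mp hdvd with h3 | h3
      · exact h h3
      · rw [h2] at h3
        omega
    exact mzlt_of_mul N' q 9 (mzlt_good t2i_export (N' * 9) q h' (Or.inr (Dvd.intro_left N' rfl)))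
  · have h' : ¬ q ∣ N' * 4 := by
      intro hdvd
      rcases (Nat.Prime.dvd_mul hq.out).mp hdvd with h3 | h3
      · exact h h3
      · have h4 : q ∣ 2 ^ 2 := by norm_num; exact h3
        exact h2 ((Nat.prime_dvd_prime_iff_eq hq.out Nat.prime_two).mp (hq.out.dvd_of_dvd_pow h4))
    exact mzlt_of_mul N' q 4 (mzlt_good t2i_export (N' * 4) q h' (Or.inl (Dvd.intro_left N' rfl)))

end Fermat.Agent.Mazur
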