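/-
MAZUR (Track M), package (p) (helper5), part 5: **instantiation of the local package at the level
prime** for finite `G_ℚ`-submodules of `J₀(N)`.

The Kummer dictionary `tWsub ℚ̄ N m → J₀(N)[m]`, `y ↦ [div(y)/m]` (ALPHA/Tate: `alptKumW`, surjective,
Galois equivariant, kernel = `m`-th powers) translates
* `t2i_unip` (T2-G)     into `mzli_unip` : `(σ - 1)² = 0` on `J₀(N)[P^k]` for `σ ∈ I_q`, `q ∥ N`, `q ≠ P`;
* `mzlt_toric` ((p)-INST-F) into `mzli_frob` : `φ² = q²` on `(σ - 1) J₀(N' q)[m]` (`q ∤ N' m`).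
With the abstract core (`mzl_delta`, `mzl_ob`, `mzl_ob'`) this gives, for a finite `G_ℚ`-module `X`
killed by `P^k` with an injective equivariant `ι : X →+ J₀(N)`, `q ∥ N`, `𝔭 | q`:
* `mzli_smooth` : open stabilisers;
* `mzli_delta`  : **(N-δ)** `[X : X^{I_𝔭}]² ≤ #X`;
* `mzli_ob`, `mzli_ob'` : **(p-ob)**.
-/
import Fermat.Agent.Lib.Mazur.Locp.ToricAll
import Fermat.Agent.Lib.Mazur.Locp.Core
import Fermat.Agent.Lib.Alpha.Tate.Kummer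
import Fermat.Agent.Lib.T2.Inst.ExportH

set_option autoImplicit false
set_option linter.unusedSectionVars false
set_option linter.unusedVariables false
set_option linter.style.haveILetI false
set_option synthInstance.maxHeartbeats 400000

namespace Fermat.Agent.Mazur

open ModularCurve AlgebraicCurve Fermat.Agent.T1 Fermat.Agent.TW Fermat.Agent.T2 Fermat.Agent.Alpha

local notation "Qb" => AlgebraicClosure ℚ
local notation "GQ" => (AlgebraicClosure ℚ ≃ₐ[ℚ] AlgebraicClosure ℚ)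

section Kummer

variable (M : ℕ) [NeZero M] (m : ℕ) (hm : m ≠ 0)

/-- the Kummer class `[div(y)/m] ∈ J₀(M)` of `y ∈ tWsub ℚ̄ M m` -/
noncomputable def mzliK (y : tWsub Qb M m) : JZero M := alpfClass hm y.1 y.2

theorem mzliK_eq (y : tWsub Qb M m) :
    mzliK M m hm y = ((Multiplicative.toAdd (alptKumW M m hm y) :
      ↥(Submodule.torsionBy ℤ (JZero M) (m : ℤ))) : JZero M) := rfl

theorem mzliK_mul (y y' : tWsub Qb M m) :
    mzliK M m hm (y * y') = mzliK M m hm y + mzliK M m hm y' := by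
  rw [mzliK_eq, mzliK_eq, mzliK_eq, map_mul]
  rfl

theorem mzliK_one : mzliK M m hm 1 = 0 := by
  rw [mzliK_eq, map_one]
  rfl

theorem mzliK_inv (y : tWsub Qb M m) : mzliK M m hm y⁻¹ = -mzliK M m hm y := by
  have h := mzliK_mul M m hm y y⁻¹
  rw [mul_inv_cancel, mzliK_one] at h
  exact (neg_eq_of_add_eq_zero_right h.symm).symm

theorem mzliK_pow (y : tWsub Qb M m) (n : ℕ) : mzliK M m hm (y ^ n) = n • mzliK M m hm y := by
  induction n with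
  | zero => rw [pow_zero, zero_nsmul, mzliK_one]
  | succ n ih => rw [pow_succ, mzliK_mul, ih, succ_nsmul]

/-- `m`-th powers have trivial class -/
theorem mzliK_mpow (t : (↥(modularFunctionFieldBar M))ˣ) :
    mzliK M m hm ⟨t ^ m, tkr_pow_mem_tWsub M m t⟩ = 0 :=
  alpfClass_pow hm t _

/-- Galois equivariance -/
theorem mzliK_sig (σ : GQ) (y : tWsub Qb M m) :
    mzliK M m hm (tdmSigW M m σ y) = σ • mzliK M m hm y := by
  have h := alptKumW_sig M m hm σ y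
  have h2 := congrArg (fun z : ↥(Submodule.torsionBy ℤ (JZero M) (m : ℤ)) => (z : JZero M)) h
  exact h2

/-- every `m`-torsion point is a Kummer class -/
theorem mzliK_surj (x : JZero M) (hx : m • x = 0) : ∃ y : tWsub Qb M m, mzliK M m hm y = x := by
  have hx' : (m : ℤ) • x = 0 := by rw [natCast_zsmul]; exact hx
  obtain ⟨y, hy, hxy⟩ := alpf_exists_class hm x hx'
  exact ⟨⟨y, hy⟩, hxy⟩

end Kummer

section Unip

/-- **the inertia group at `q ∥ N` acts unipotently on `J₀(N)[P^k]`**, `P ≠ q` -/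
theorem mzli_unip (P : ℕ) [Fact P.Prime] (N : ℕ) [NeZero N] (q : ℕ) (hq : q.Prime) (hqP : q ≠ P)
    (hqN : q ∣ N) (hq2 : ¬ q ^ 2 ∣ N) (A : ValuationSubring Qb) (hA : A.LiesOverPrime q)
    (σ : GQ) (hσ : σ ∈ A.inertiaSubgroupIn ℚ) (k : ℕ) (x : JZero N) (hx : P ^ k • x = 0) :
    σ • (σ • x - x) = σ • x - x := by
  have hm : P ^ k ≠ 0 := pow_ne_zero k (Fact.out : P.Prime).ne_zero
  obtain ⟨y, rfl⟩ := mzliK_surj N (P ^ k) hm x hx
  obtain ⟨t, ht⟩ := t2i_unip P N q hq hqP hqN hq2 A hA σ hσ k y.1 y.2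
  have h1 : tdmSigW N (P ^ k) σ (tdmSigW N (P ^ k) σ y) * y =
      (tdmSigW N (P ^ k) σ y) ^ 2 * ⟨t ^ (P ^ k), tkr_pow_mem_tWsub N (P ^ k) t⟩ :=
    Subtype.ext ht
  have h2 := congrArg (mzliK N (P ^ k) hm) h1
  rw [mzliK_mul, mzliK_mul, mzliK_pow, mzliK_mpow, mzliK_sig, mzliK_sig, add_zero] at h2
  rw [smul_sub]
  have h3 : σ • σ • mzliK N (P ^ k) hm y =
      2 • σ • mzliK N (P ^ k) hm y - mzliK N (P ^ k) hm y := eq_sub_of_add_eq h2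
  rw [h3, two_nsmul]
  abel

end Unip

section Frob

/-- **the inertia image at `q ∥ N' q` is toric**: `φ² = q²` on `(σ - 1) J₀(N' q)[m]` -/
theorem mzli_frob (N' q : ℕ) [NeZero N'] [Fact q.Prime] (h : ¬ q ∣ N')
    (A : ValuationSubring Qb) (hA : A.LiesOverPrime q) (φ : GQ) (hφ : A.IsFrobeniusAt φ q)
    (m : ℕ) (hmq : Nat.Coprime m q) (hm : m ≠ 0) (σ : GQ) (hσ : σ ∈ A.inertiaSubgroupIn ℚ)
    (x : JZero (N' * q)) (hx : m • x = 0) :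
    φ • φ • (σ • x - x) = (q ^ 2) • (σ • x - x) := by
  obtain ⟨y, rfl⟩ := mzliK_surj (N' * q) m hm x hx
  obtain ⟨t, ht⟩ := mzlt_toric N' q h A hA φ hφ m hmq hm σ hσ y.1 y.2
  have h1 : tdmSigW (N' * q) m φ (tdmSigW (N' * q) m φ (tdmSigW (N' * q) m σ y * y⁻¹)) =
      (tdmSigW (N' * q) m σ y * y⁻¹) ^ (q ^ 2) * ⟨t ^ m, tkr_pow_mem_tWsub (N' * q) m t⟩ :=
    Subtype.ext ht
  have h2 := congrArg (mzliK (N' * q) m hm) h1
  simp only [mzliK_sig, mzliK_mul, mzliK_pow, mzliK_mpow, mzliK_inv, add_zero,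
    ← sub_eq_add_neg] at h2
  exact h2

end Frob

section Inst

variable {X : Type*} [AddCommGroup X] [DistribMulAction GQ X]

/-- open stabilisers for torsion points of `J₀(N)` -/
theorem mzli_smooth_pt (N : ℕ) [NeZero N] {m : ℕ} (hm : m ≠ 0) (x : JZero N) (hx : m • x = 0) :
    IsLocallyConstant (fun g : GQ => g • x) := by
  have hx' : (m : ℤ) • x = 0 := by rw [natCast_zsmul]; exact hx
  obtain ⟨L, hL, hfix⟩ := alpf_open N m hm x hx'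
  haveI := hL
  rw [IsLocallyConstant.iff_exists_open]
  intro g
  refine ⟨(fun h : GQ => g * h) '' (L.fixingSubgroup : Set GQ), ?_, ?_, ?_⟩
  · exact (Homeomorph.mulLeft g).isOpenMap _ (IntermediateField.fixingSubgroup_isOpen L)
  · exact ⟨1, (L.fixingSubgroup).one_mem, mul_one g⟩
  · rintro _ ⟨h, hh, rfl⟩
    show (g * h) • x = g • x
    rw [mul_smul]
    congr 1
    exact hfix h (fun a ha => hh ⟨a, ha⟩)

/-- **open stabilisers** for a finite torsion submodule of `J₀(N)` -/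
theorem mzli_smooth (N : ℕ) [NeZero N] (ι : X →+ JZero N) (hι : Function.Injective ι)
    (hιG : ∀ (g : GQ) (x : X), ι (g • x) = g • ι x) {m : ℕ} (hm : m ≠ 0)
    (hmX : ∀ x : X, m • x = 0) (x : X) : IsLocallyConstant (fun g : GQ => g • x) := by
  have h1 := mzli_smooth_pt N hm (ι x) (by rw [← map_nsmul, hmX, map_zero])
  rw [IsLocallyConstant.iff_exists_open] at h1 ⊢
  intro g
  obtain ⟨U, hU, hgU, hUc⟩ := h1 g
  refine ⟨U, hU, hgU, fun g' hg' => hι ?_⟩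
  rw [hιG, hιG]
  exact hUc g' hg'

variable [Finite X]

/-- **(N-δ)** for a finite `G_ℚ`-submodule of `J₀(N)[P^k]`, at a prime `q ∥ N`, `q ≠ P` -/
theorem mzli_delta (N : ℕ) [NeZero N] (𝔭 : FFPlace) (hqN : 𝔭.p ∣ N) (hq2 : ¬ 𝔭.p ^ 2 ∣ N)
    {P k : ℕ} (hP : P.Prime) (hPq : P ≠ 𝔭.p)
    (ι : X →+ JZero N) (hι : Function.Injective ι)
    (hιG : ∀ (g : GQ) (x : X), ι (g • x) = g • ι x) (hPk : ∀ x : X, P ^ k • x = 0)
    {Y : AddSubgroup X} (hY : ∀ x : X, x ∈ Y ↔ ∀ i ∈ 𝔭.I, i • x = x) :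
    Y.index ^ 2 ≤ Nat.card X := by
  haveI : Fact P.Prime := ⟨hP⟩
  have hcop : Nat.Coprime P 𝔭.p := (Nat.coprime_primes hP 𝔭.hp).mpr hPq
  refine mzl_delta 𝔭 hcop hPk
    (mzli_smooth N ι hι hιG (pow_ne_zero k hP.ne_zero) hPk) ?_ hY
  intro σ hσ x
  apply hι
  rw [hιG, map_sub, hιG]
  exact mzli_unip P N 𝔭.p 𝔭.hp hPq.symm hqN hq2 𝔭.P 𝔭.hP σ hσ k (ι x)
    (by rw [← map_nsmul, hPk, map_zero])

/-- the hypotheses (U) and (F) of the abstract core for a finite `G_ℚ`-submodule of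
`J₀(N' q)[P^k]` -/
theorem mzli_hyps (N' : ℕ) [NeZero N'] (𝔭 : FFPlace) (h : ¬ 𝔭.p ∣ N')
    {P k : ℕ} (hP : P.Prime) (hPq : P ≠ 𝔭.p)
    (ι : X →+ JZero (N' * 𝔭.p)) (hι : Function.Injective ι)
    (hιG : ∀ (g : GQ) (x : X), ι (g • x) = g • ι x) (hPk : ∀ x : X, P ^ k • x = 0) :
    (∀ σ ∈ 𝔭.I, ∀ x : X, σ • (σ • x - x) = σ • x - x) ∧
    ∃ φ : GQ, 𝔭.P.IsFrobeniusAt φ 𝔭.p ∧
      ∀ σ ∈ 𝔭.I, ∀ x : X, φ • φ • (σ • x - x) = (𝔭.p ^ 2) • (σ • x - x) := by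
  haveI : Fact P.Prime := ⟨hP⟩
  haveI : Fact (𝔭.p).Prime := ⟨𝔭.hp⟩
  haveI : NeZero (N' * 𝔭.p) := ⟨mul_ne_zero (NeZero.ne N') 𝔭.hp.ne_zero⟩
  have hcop : Nat.Coprime P 𝔭.p := (Nat.coprime_primes hP 𝔭.hp).mpr hPq
  have hm : P ^ k ≠ 0 := pow_ne_zero k hP.ne_zero
  have htor : ∀ x : X, P ^ k • ι x = 0 := fun x => by rw [← map_nsmul, hPk, map_zero]
  constructor
  · intro σ hσ x
    apply hι
    rw [hιG, map_sub, hιG]
    refine mzli_unip P (N' * 𝔭.p) 𝔭.p 𝔭.hp hPq.symm (dvd_mul_left _ _) ?_ 𝔭.P 𝔭.hP σ hσ k (ι x)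
      (htor x)
    intro h2
    rw [sq] at h2
    exact h ((Nat.mul_dvd_mul_iff_right 𝔭.hp.pos).mp h2)
  · obtain ⟨φ, hφ⟩ := Fermat.Agent.Lib.Helper6.exists_isFrobeniusAt 𝔭.P 𝔭.hp 𝔭.hP
    refine ⟨φ, hφ, fun σ hσ x => hι ?_⟩
    rw [hιG, hιG, map_sub, hιG, map_nsmul, map_sub, hιG]
    exact mzli_frob N' 𝔭.p h 𝔭.P 𝔭.hP φ hφ (P ^ k) (Nat.Coprime.pow_left k hcop) hm σ hσ (ι x)
      (htor x)

/-- **(p-ob)** for a finite `G_ℚ`-submodule of `J₀(N)[P^k]`, `N = N' q`, `q ∤ N'`, `𝔭 | q` -/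
theorem mzli_ob (N N' : ℕ) [NeZero N] (𝔭 : FFPlace) (hN : N = N' * 𝔭.p) (h : ¬ 𝔭.p ∣ N')
    {P k : ℕ} (hP : P.Prime) (hPq : P ≠ 𝔭.p)
    (ι : X →+ JZero N) (hι : Function.Injective ι)
    (hιG : ∀ (g : GQ) (x : X), ι (g • x) = g • ι x) (hPk : ∀ x : X, P ^ k • x = 0)
    {Y : AddSubgroup X} (hY : ∀ x : X, x ∈ Y ↔ ∀ i ∈ 𝔭.I, i • x = x)
    {e : ℕ} (hbonus : Nat.card X ≤ Y.index ^ 2 * P ^ e)
    {c : GQ → X} (hc : MzsCocycle c) (hlc : IsLocallyConstant c) :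
    ∃ m : X, ∀ i ∈ 𝔭.I, (P ^ ((𝔭.p ^ 2 - 1).factorization P + e)) • c i = i • m - m := by
  subst hN
  haveI : NeZero N' := ⟨fun h0 => by
    have := NeZero.ne (N' * 𝔭.p)
    rw [h0, zero_mul] at this
    exact this rfl⟩
  have hcop : Nat.Coprime P 𝔭.p := (Nat.coprime_primes hP 𝔭.hp).mpr hPq
  obtain ⟨hU, hF⟩ := mzli_hyps N' 𝔭 h hP hPq ι hι hιG hPk
  exact mzl_ob 𝔭 hP hcop hPk
    (mzli_smooth (N' * 𝔭.p) ι hι hιG (pow_ne_zero k hP.ne_zero) hPk) hU hF hY hbonus hc hlc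

/-- (p-ob) in the form used by the Kummer map -/
theorem mzli_ob' (N N' : ℕ) [NeZero N] (𝔭 : FFPlace) (hN : N = N' * 𝔭.p) (h : ¬ 𝔭.p ∣ N')
    {P k : ℕ} (hP : P.Prime) (hPq : P ≠ 𝔭.p)
    (ι : X →+ JZero N) (hι : Function.Injective ι)
    (hιG : ∀ (g : GQ) (x : X), ι (g • x) = g • ι x) (hPk : ∀ x : X, P ^ k • x = 0)
    {Y : AddSubgroup X} (hY : ∀ x : X, x ∈ Y ↔ ∀ i ∈ 𝔭.I, i • x = x)
    {e : ℕ} (hbonus : Nat.card X ≤ Y.index ^ 2 * P ^ e)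
    {c₁ : GQ → X} (hc₁ : MzsCocycle c₁) (hlc₁ : IsLocallyConstant c₁) (m₀ : X) :
    ∃ m : X, ∀ i ∈ 𝔭.I,
      (P ^ ((𝔭.p ^ 2 - 1).factorization P + e)) • c₁ i + (i • m₀ - m₀) = i • m - m := by
  obtain ⟨m₁, hm₁⟩ := mzli_ob N N' 𝔭 hN h hP hPq ι hι hιG hPk hY hbonus hc₁ hlc₁
  refine ⟨m₁ + m₀, fun i hi => ?_⟩
  rw [hm₁ i hi, smul_add]
  abel

end Inst

end Fermat.Agent.Mazur
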